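import Fermat.Agent.FD.Alg1

/-!
# FD, piece ALG: decomposition groups and degree one primes of the fixed fields

`L/ℚ` Galois with group `G`, `D ≤ G`, `M` a number field with `IsGaloisGroup D M L` (i.e. `M = L^D`).

Paper proofs.
* `under_eq_iff`: `Algebra.IsInvariant.exists_smul_of_under_eq`.
* `under_mem_degOne_iff`: `Ideal.card_stabilizer_eq_card_inertia_mul_finrank` for `(G, ℤ, 𝓞 L)` and for
  `(D, 𝓞 M, 𝓞 L)`: `|dec v| = f(v|ℓ)`, `|dec v ∩ D| = f(v|P)`, `N v = N P ^ f(v|P)`,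
  `N P = ℓ ^ f(P|ℓ)`.
-/

set_option autoImplicit false
set_option linter.unusedSectionVars false

namespace Fermat.Agent.FD

open NumberField IsDedekindDomain
open scoped Pointwise

variable {L : Type*} [Field L] [NumberField L] [IsGalois ℚ L]

theorem natCast_mem_under (M : Type*) [Field M] [NumberField M] [Algebra M L] (δ : ℕ)
    (v : HeightOneSpectrum (𝓞 L)) :
    (δ : 𝓞 M) ∈ (v.under (𝓞 M)).asIdeal ↔ (δ : 𝓞 L) ∈ v.asIdeal := by
  change (δ : 𝓞 M) ∈ Ideal.comap (algebraMap (𝓞 M) (𝓞 L)) v.asIdeal ↔ _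
  rw [Ideal.mem_comap, map_natCast]

theorem zbq_under (M : Type*) [Field M] [NumberField M] [Algebra M L]
    (v : HeightOneSpectrum (𝓞 L)) : S14.zbq (v.under (𝓞 M)) = S14.zbq v := by
  unfold S14.zbq
  congr 1
  change Ideal.under ℤ (Ideal.under (𝓞 M) v.asIdeal) = _
  rw [Ideal.under_under]

theorem absNorm_under (M : Type*) [Field M] [NumberField M] [Algebra M L]
    {v : HeightOneSpectrum (𝓞 L)} (h : v.under (𝓞 M) ∈ S14.degOne M) :
    Ideal.absNorm (v.under (𝓞 M)).asIdeal = S14.zbq v := by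
  obtain ⟨f, hf0, hf⟩ := S14.zb_absNorm_eq (v.under (𝓞 M))
  have h1 : (Ideal.absNorm (v.under (𝓞 M)).asIdeal).Prime := h
  rw [hf] at h1
  have h2 : f = 1 := (Nat.Prime.eq_one_of_pow h1)
  rw [hf, h2, pow_one, zbq_under]

theorem under_surjective (M : Type*) [Field M] [NumberField M] [Algebra M L] :
    Function.Surjective (fun v : HeightOneSpectrum (𝓞 L) => v.under (𝓞 M)) := by
  rintro ⟨p, hp, hp0⟩
  obtain ⟨P, hP, rfl⟩ := p.exists_ideal_over_prime_of_isIntegral_of_isDomain (S := 𝓞 L) (by simp)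
  exact ⟨⟨P, hP, by aesop⟩, rfl⟩

variable (D : Subgroup (L ≃ₐ[ℚ] L)) (M : Type*) [Field M] [NumberField M] [Algebra M L]
  [IsGaloisGroup D M L]

theorem under_eq_iff (v w : HeightOneSpectrum (𝓞 L)) :
    v.under (𝓞 M) = w.under (𝓞 M) ↔ ∃ τ : D, τ • v = w := by
  have : IsGaloisGroup D (𝓞 M) (𝓞 L) := IsGaloisGroup.of_isFractionRing D (𝓞 M) (𝓞 L) M L
  constructor
  · intro h
    have h1 : v.asIdeal.under (𝓞 M) = w.asIdeal.under (𝓞 M) :=
      congrArg HeightOneSpectrum.asIdeal h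
    have := v.isPrime
    have := w.isPrime
    obtain ⟨τ, hτ⟩ := Algebra.IsInvariant.exists_smul_of_under_eq (𝓞 M) (𝓞 L) D _ _ h1
    exact ⟨τ, HeightOneSpectrum.ext hτ.symm⟩
  · rintro ⟨τ, rfl⟩
    apply HeightOneSpectrum.ext
    change v.asIdeal.under (𝓞 M) = (τ • v.asIdeal).under (𝓞 M)
    exact (Ideal.under_smul (A := 𝓞 M) (g := τ) (P := v.asIdeal)).symm

/-- `N v = N P ^ |dec v ⊓ D|`. -/
theorem absNorm_eq_pow_card_inf {v : HeightOneSpectrum (𝓞 L)} (hv : Unr v) :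
    Ideal.absNorm v.asIdeal =
      Ideal.absNorm (v.under (𝓞 M)).asIdeal ^ Nat.card (dec v ⊓ D : Subgroup (L ≃ₐ[ℚ] L)) := by
  have : IsGaloisGroup D (𝓞 M) (𝓞 L) := IsGaloisGroup.of_isFractionRing D (𝓞 M) (𝓞 L) M L
  have h1 : v.asIdeal.LiesOver (v.under (𝓞 M)).asIdeal := ⟨rfl⟩
  have h2 := (v.under (𝓞 M)).isMaximal
  have h2' := (v.under (𝓞 M)).isPrime
  have h3 := v.isMaximal
  have h4 := Ideal.card_stabilizer_eq_card_inertia_mul_finrank (G := D)
    (v.under (𝓞 M)).asIdeal v.asIdeal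
  have h5 : Ideal.inertia D v.asIdeal = ⊥ := by
    rw [eq_bot_iff]
    intro τ hτ
    rw [Subgroup.mem_bot]
    exact Subtype.ext (hv τ hτ)
  have h6 : Nat.card (MulAction.stabilizer D v.asIdeal) =
      Nat.card (dec v ⊓ D : Subgroup (L ≃ₐ[ℚ] L)) := by
    have h7 : MulAction.stabilizer D v.asIdeal = (dec v ⊓ D).subgroupOf D := by
      ext τ
      rw [Subgroup.inf_subgroupOf_right, MulAction.mem_stabilizer_iff, Subgroup.mem_subgroupOf,
        dec_eq_stabilizer, MulAction.mem_stabilizer_iff]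
      rfl
    rw [h7]
    exact Nat.card_congr (Subgroup.subgroupOfEquivOfLe inf_le_right).toEquiv
  rw [h5, Subgroup.card_bot, one_mul] at h4
  have h8 : Nat.card (dec v ⊓ D : Subgroup (L ≃ₐ[ℚ] L)) = v.asIdeal.inertiaDeg (𝓞 M) :=
    h6.symm.trans h4
  rw [h8, ← Ideal.inertiaDeg'_eq_inertiaDeg (v.under (𝓞 M)).asIdeal]
  exact Ideal.absNorm_eq_pow_inertiaDeg'_of_liesOver v.asIdeal (v.under (𝓞 M)).asIdeal h2'
    (v.under (𝓞 M)).ne_bot

theorem under_mem_degOne_iff {v : HeightOneSpectrum (𝓞 L)} (hv : Unr v) :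
    v.under (𝓞 M) ∈ S14.degOne M ↔ dec v ≤ D := by
  have hq := S14.zbq_prime v
  obtain ⟨f, hf0, hf⟩ := S14.zb_absNorm_eq (v.under (𝓞 M))
  rw [zbq_under] at hf
  have h1 := absNorm_eq_pow_card_inf D M hv
  rw [absNorm_eq_pow_card_dec hv, hf, ← pow_mul] at h1
  have h2 : Nat.card (dec v) = f * Nat.card (dec v ⊓ D : Subgroup (L ≃ₐ[ℚ] L)) :=
    Nat.pow_right_injective hq.two_le h1
  have hpos : 0 < Nat.card (dec v ⊓ D : Subgroup (L ≃ₐ[ℚ] L)) := Nat.card_pos
  constructor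
  · intro h
    have h3 : (Ideal.absNorm (v.under (𝓞 M)).asIdeal).Prime := h
    rw [hf] at h3
    have h4 : f = 1 := Nat.Prime.eq_one_of_pow h3
    rw [h4, one_mul] at h2
    have h5 : dec v ⊓ D = dec v := Subgroup.eq_of_le_of_card_ge inf_le_left h2.le
    exact h5 ▸ inf_le_right
  · intro h
    have h5 : dec v ⊓ D = dec v := inf_eq_left.mpr h
    rw [h5] at h2 hpos
    have h4 : f = 1 := by
      have : f * Nat.card (dec v) = 1 * Nat.card (dec v) := by rw [one_mul]; exact h2.symm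
      exact Nat.eq_of_mul_eq_mul_right hpos this
    change (Ideal.absNorm (v.under (𝓞 M)).asIdeal).Prime
    rw [hf, h4, pow_one]
    exact hq

end Fermat.Agent.FD
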