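import Fermat.Agent.FD.Defs

/-!
# FD, piece ALG1: trivial inertia outside a finite set, the decomposition group is generated by
the Frobenius

* `exists_delta`: for `τ ≠ 1` choose `x_τ ∈ 𝓞 L` with `τ x_τ ≠ x_τ`; `δ₀ = absNorm (∏_τ (τ x_τ - x_τ))`.
* `absNorm_eq_pow_card_dec`: `N v = ℓ ^ |dec v|` if the inertia group is trivial.
* `dec_le_zpowers`: `φ ∈ dec v`; `φ ^ i = 1` implies `x ^ (ℓ ^ i) = x` on `𝓞 L / v`, so `ℓ ^ f ≤ ℓ ^ i`;
  hence `orderOf φ ≥ f = |dec v|`.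
-/

set_option autoImplicit false

namespace Fermat.Agent.FD

open NumberField IsDedekindDomain
open scoped Pointwise

variable {L : Type*} [Field L] [NumberField L] [IsGalois ℚ L]

theorem exists_delta (L : Type*) [Field L] [NumberField L] [IsGalois ℚ L] :
    ∃ δ₀ : ℕ, δ₀ ≠ 0 ∧ ∀ v : HeightOneSpectrum (𝓞 L), (δ₀ : 𝓞 L) ∉ v.asIdeal → Unr v := by
  classical
  have hfaith : FaithfulSMul (L ≃ₐ[ℚ] L) (𝓞 L) := IsGaloisGroup.faithful ℤ
  have h1 : ∀ τ : L ≃ₐ[ℚ] L, ∃ y : 𝓞 L, y ≠ 0 ∧ (τ ≠ 1 → ∃ x : 𝓞 L, y = τ • x - x) := by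
    intro τ
    by_cases hτ : τ = 1
    · exact ⟨1, one_ne_zero, fun h => absurd hτ h⟩
    · have : ∃ x : 𝓞 L, τ • x ≠ x := by
        by_contra hcon
        push Not at hcon
        apply hτ
        apply hfaith.eq_of_smul_eq_smul
        intro x
        rw [hcon x, one_smul]
      obtain ⟨x, hx⟩ := this
      exact ⟨τ • x - x, sub_ne_zero.mpr hx, fun _ => ⟨x, rfl⟩⟩
  choose y hy0 hy using h1
  have : Fintype (L ≃ₐ[ℚ] L) := Fintype.ofFinite _
  set a : 𝓞 L := ∏ τ, y τ with ha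
  have ha0 : a ≠ 0 := Finset.prod_ne_zero_iff.mpr fun τ _ => hy0 τ
  refine ⟨Ideal.absNorm (Ideal.span {a}), ?_, ?_⟩
  · rw [Ne, Ideal.absNorm_eq_zero_iff, Ideal.span_singleton_eq_bot]
    exact ha0
  · intro v hv τ hτ
    by_contra hne
    apply hv
    obtain ⟨x, hx⟩ := hy τ hne
    have h2 : y τ ∈ v.asIdeal := hx ▸ hτ x
    have h3 : a ∈ v.asIdeal := Ideal.mem_of_dvd _ (Finset.dvd_prod_of_mem y (Finset.mem_univ τ)) h2
    have h4 : Ideal.span {a} ≤ v.asIdeal := (Ideal.span_singleton_le_iff_mem _).mpr h3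
    exact h4 (Ideal.absNorm_mem _)

omit [IsGalois ℚ L] in
theorem dec_eq_stabilizer (v : HeightOneSpectrum (𝓞 L)) :
    dec v = MulAction.stabilizer (L ≃ₐ[ℚ] L) v.asIdeal := by
  ext τ
  rw [MulAction.mem_stabilizer_iff, MulAction.mem_stabilizer_iff, HeightOneSpectrum.ext_iff]
  rfl

theorem absNorm_eq_pow_card_dec {v : HeightOneSpectrum (𝓞 L)} (hv : Unr v) :
    Ideal.absNorm v.asIdeal = S14.zbq v ^ Nat.card (dec v) := by
  have hq := S14.zbq_prime v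
  have h1 : v.asIdeal.LiesOver (Ideal.span {((S14.zbq v : ℕ) : ℤ)}) :=
    Int.liesOver_span_absNorm v.asIdeal
  have h2 : (Ideal.span {((S14.zbq v : ℕ) : ℤ)}).IsMaximal := by
    have : Fact (S14.zbq v).Prime := ⟨hq⟩
    exact Int.ideal_span_isMaximal_of_prime (S14.zbq v)
  have h3 := v.isMaximal
  have h4 := Ideal.card_stabilizer_eq_card_inertia_mul_finrank (G := L ≃ₐ[ℚ] L)
    (Ideal.span {((S14.zbq v : ℕ) : ℤ)}) v.asIdeal
  have h5 : Ideal.inertia (L ≃ₐ[ℚ] L) v.asIdeal = ⊥ := by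
    rw [eq_bot_iff]
    intro τ hτ
    rw [Subgroup.mem_bot]
    exact hv τ hτ
  rw [h5, Subgroup.card_bot, one_mul, ← dec_eq_stabilizer] at h4
  rw [h4, ← Ideal.inertiaDeg'_eq_inertiaDeg (Ideal.span {((S14.zbq v : ℕ) : ℤ)})]
  exact Ideal.absNorm_eq_pow_inertiaDeg' v.asIdeal hq

omit [IsGalois ℚ L] in
theorem frob_iterate {v : HeightOneSpectrum (𝓞 L)} {ℓ : ℕ} (φ : L ≃ₐ[ℚ] L)
    (hφ : ∀ x : 𝓞 L, φ • x - x ^ ℓ ∈ v.asIdeal) (j : ℕ) (x : 𝓞 L) :
    Ideal.Quotient.mk v.asIdeal ((φ ^ j) • x) = (Ideal.Quotient.mk v.asIdeal x) ^ (ℓ ^ j) := by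
  induction j with
  | zero => simp
  | succ j ih =>
    rw [pow_succ', mul_smul, pow_succ, pow_mul, ← ih, ← map_pow, Ideal.Quotient.eq]
    exact hφ _

theorem dec_le_zpowers {v : HeightOneSpectrum (𝓞 L)} (hv : Unr v) (φ : L ≃ₐ[ℚ] L)
    (hφ : ∀ x : 𝓞 L, φ • x - x ^ S14.zbq v ∈ v.asIdeal) : dec v ≤ Subgroup.zpowers φ := by
  classical
  have hq := S14.zbq_prime v
  -- `φ` lies in the decomposition group
  have h1 : φ ∈ dec v := by
    rw [dec_eq_stabilizer]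
    have hF : IsArithFrobAt ℤ φ v.asIdeal := by
      intro x
      have hc : Nat.card (ℤ ⧸ v.asIdeal.under ℤ) = S14.zbq v := by
        rw [S14.zbq, Ideal.absNorm_apply, Submodule.cardQuot_apply]
      rw [hc]
      exact hφ x
    have := v.isPrime
    exact hF.mem_stabilizer
  have h2 : Subgroup.zpowers φ ≤ dec v := (Subgroup.zpowers_le).mpr h1
  refine (Subgroup.eq_of_le_of_card_ge h2 ?_).ge
  rw [Nat.card_zpowers]
  -- all elements of the residue field are roots of `X ^ (ℓ ^ i) - X`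
  set i := orderOf φ with hi
  have hi0 : 0 < i := orderOf_pos φ
  have h3 : ∀ y : 𝓞 L ⧸ v.asIdeal, y ^ (S14.zbq v ^ i) = y := by
    intro y
    obtain ⟨x, rfl⟩ := Ideal.Quotient.mk_surjective y
    rw [← frob_iterate φ hφ i x, hi, pow_orderOf_eq_one, one_smul]
  have := v.isMaximal
  let _ := Ideal.Quotient.field v.asIdeal
  have hfin : Finite (𝓞 L ⧸ v.asIdeal) := Ideal.finiteQuotientOfFreeOfNeBot _ v.ne_bot
  have : Fintype (𝓞 L ⧸ v.asIdeal) := Fintype.ofFinite _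
  have h4 : Fintype.card (𝓞 L ⧸ v.asIdeal) ≤ S14.zbq v ^ i := by
    have hne := FiniteField.X_pow_card_pow_sub_X_ne_zero (𝓞 L ⧸ v.asIdeal) hi0.ne' hq.one_lt
    have h5 := Polynomial.card_le_degree_of_subset_roots
      (p := (Polynomial.X ^ (S14.zbq v ^ i) - Polynomial.X : Polynomial (𝓞 L ⧸ v.asIdeal)))
      (Z := Finset.univ) (by
        intro y _
        rw [Polynomial.mem_roots hne]
        simp [h3 y])
    rwa [FiniteField.X_pow_card_pow_sub_X_natDegree_eq _ hi0.ne' hq.one_lt] at h5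
  have h6 : Fintype.card (𝓞 L ⧸ v.asIdeal) = S14.zbq v ^ Nat.card (dec v) := by
    rw [← absNorm_eq_pow_card_dec hv, Ideal.absNorm_apply, Submodule.cardQuot_apply,
      Nat.card_eq_fintype_card]
  rw [h6] at h4
  exact (Nat.pow_le_pow_iff_right hq.one_lt).mp h4

end Fermat.Agent.FD
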