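import Fermat.Agent.FD.Defs

/-!
# FD, piece ALG2: primes of the fixed field `M = L^D` below primes of `L`

Same statements as in `Alg.lean` (second half), names with a prime.
-/

set_option autoImplicit false
set_option linter.unusedSectionVars false
set_option linter.style.haveILetI false

namespace Fermat.Agent.FD

open NumberField IsDedekindDomain
open scoped Pointwise

variable {L : Type*} [Field L] [NumberField L] [IsGalois ℚ L]

theorem under_surjective' (M : Type*) [Field M] [NumberField M] [Algebra M L] :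
    Function.Surjective (fun v : HeightOneSpectrum (𝓞 L) => v.under (𝓞 M)) := by
  intro w
  have := w.isMaximal
  obtain ⟨P, hP, hPw⟩ := Ideal.exists_maximal_ideal_liesOver_of_isIntegral w.asIdeal (S := 𝓞 L)
  refine ⟨⟨P, hP.isPrime, ?_⟩, ?_⟩
  · rintro rfl
    apply w.ne_bot
    rw [hPw.over]
    exact Ideal.under_bot _ _
  · apply HeightOneSpectrum.ext
    exact hPw.over.symm

theorem natCast_mem_under' (M : Type*) [Field M] [NumberField M] [Algebra M L] (δ : ℕ)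
    (v : HeightOneSpectrum (𝓞 L)) :
    (δ : 𝓞 M) ∈ (v.under (𝓞 M)).asIdeal ↔ (δ : 𝓞 L) ∈ v.asIdeal := by
  change (δ : 𝓞 M) ∈ v.asIdeal.under (𝓞 M) ↔ _
  rw [Ideal.under_def, Ideal.mem_comap, map_natCast]

theorem zbq_under (M : Type*) [Field M] [NumberField M] [Algebra M L]
    (v : HeightOneSpectrum (𝓞 L)) : S14.zbq (v.under (𝓞 M)) = S14.zbq v := by
  unfold S14.zbq
  congr 1
  exact Ideal.under_under _

theorem absNorm_under' (M : Type*) [Field M] [NumberField M] [Algebra M L]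
    {v : HeightOneSpectrum (𝓞 L)} (h : v.under (𝓞 M) ∈ S14.degOne M) :
    Ideal.absNorm (v.under (𝓞 M)).asIdeal = S14.zbq v := by
  obtain ⟨f, hf, he⟩ := S14.zb_absNorm_eq (v.under (𝓞 M))
  have hpr : (Ideal.absNorm (v.under (𝓞 M)).asIdeal).Prime := h
  rw [he] at hpr ⊢
  have : f = 1 := (Nat.Prime.eq_one_of_pow hpr)
  rw [this, pow_one, zbq_under]

variable (D : Subgroup (L ≃ₐ[ℚ] L)) (M : Type*) [Field M] [NumberField M] [Algebra M L]
  [IsGaloisGroup D M L]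

theorem under_eq_iff' (v w : HeightOneSpectrum (𝓞 L)) :
    v.under (𝓞 M) = w.under (𝓞 M) ↔ ∃ τ : D, τ • v = w := by
  haveI : IsGaloisGroup D (𝓞 M) (𝓞 L) := IsGaloisGroup.of_isFractionRing D (𝓞 M) (𝓞 L) M L
  constructor
  · intro h
    have h' : v.asIdeal.under (𝓞 M) = w.asIdeal.under (𝓞 M) := congrArg HeightOneSpectrum.asIdeal h
    haveI : w.asIdeal.LiesOver (v.asIdeal.under (𝓞 M)) := ⟨h'⟩
    obtain ⟨τ, hτ⟩ := Ideal.exists_smul_eq_of_isGaloisGroup (v.asIdeal.under (𝓞 M)) v.asIdeal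
      w.asIdeal D
    exact ⟨τ, HeightOneSpectrum.ext hτ⟩
  · rintro ⟨τ, rfl⟩
    apply HeightOneSpectrum.ext
    change v.asIdeal.under (𝓞 M) = (τ • v.asIdeal).under (𝓞 M)
    have hc : SMulCommClass D (𝓞 M) (𝓞 L) := IsGaloisGroup.commutes
    exact (Ideal.under_smul (𝓞 M) v.asIdeal τ).symm

omit [IsGalois ℚ L] in
theorem mem_dec_iff (v : HeightOneSpectrum (𝓞 L)) (τ : L ≃ₐ[ℚ] L) :
    τ ∈ dec v ↔ τ • v.asIdeal = v.asIdeal := by
  rw [MulAction.mem_stabilizer_iff]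
  constructor
  · intro h; exact congrArg HeightOneSpectrum.asIdeal h
  · intro h; exact HeightOneSpectrum.ext h

theorem card_dec_eq {v : HeightOneSpectrum (𝓞 L)} (hv : Unr v) :
    Nat.card (dec v) = v.asIdeal.inertiaDeg ℤ := by
  have h := Ideal.card_stabilizer_eq_card_inertia_mul_finrank (G := L ≃ₐ[ℚ] L)
    (v.asIdeal.under ℤ) v.asIdeal
  have h1 : Nat.card (v.asIdeal.inertia (L ≃ₐ[ℚ] L)) = 1 := by
    rw [Subgroup.card_eq_one, eq_bot_iff]
    intro τ hτ
    exact hv τ hτ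
  rw [h1, one_mul] at h
  rw [← h]
  apply Nat.card_congr
  exact Equiv.subtypeEquivRight fun τ => by
    rw [mem_dec_iff, MulAction.mem_stabilizer_iff]

theorem card_dec_inf_eq {v : HeightOneSpectrum (𝓞 L)} (hv : Unr v) :
    Nat.card (dec v ⊓ D : Subgroup (L ≃ₐ[ℚ] L)) = v.asIdeal.inertiaDeg (𝓞 M) := by
  haveI : IsGaloisGroup D (𝓞 M) (𝓞 L) := IsGaloisGroup.of_isFractionRing D (𝓞 M) (𝓞 L) M L
  have h := Ideal.card_stabilizer_eq_card_inertia_mul_finrank (G := D)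
    (v.asIdeal.under (𝓞 M)) v.asIdeal
  have h1 : Nat.card (v.asIdeal.inertia D) = 1 := by
    rw [Subgroup.card_eq_one, eq_bot_iff]
    intro τ hτ
    exact Subtype.ext (hv τ hτ)
  rw [h1, one_mul] at h
  rw [← h]
  apply Nat.card_congr
  refine ⟨fun τ => ⟨⟨τ.1, τ.2.2⟩, ?_⟩, fun τ => ⟨τ.1.1, ?_, τ.1.2⟩, fun τ => rfl, fun τ => rfl⟩
  · rw [MulAction.mem_stabilizer_iff]
    exact (mem_dec_iff v τ.1).mp τ.2.1
  · exact (mem_dec_iff v τ.1.1).mpr (MulAction.mem_stabilizer_iff.mp τ.2)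

theorem under_mem_degOne_iff' {v : HeightOneSpectrum (𝓞 L)} (hv : Unr v) :
    v.under (𝓞 M) ∈ S14.degOne M ↔ dec v ≤ D := by
  have hq := S14.zbq_prime (v.under (𝓞 M))
  have hmax := (v.under (𝓞 M)).isMaximal
  have hlo : (v.under (𝓞 M)).asIdeal.LiesOver (Ideal.span {((S14.zbq (v.under (𝓞 M)) : ℕ) : ℤ)}) :=
    Int.liesOver_span_absNorm (v.under (𝓞 M)).asIdeal
  have hmaxq : (Ideal.span {((S14.zbq (v.under (𝓞 M)) : ℕ) : ℤ)}).IsMaximal := by
    have : Fact (S14.zbq (v.under (𝓞 M))).Prime := ⟨hq⟩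
    exact Int.ideal_span_isMaximal_of_prime _
  have hN : Ideal.absNorm (v.under (𝓞 M)).asIdeal
      = S14.zbq (v.under (𝓞 M)) ^ ((v.under (𝓞 M)).asIdeal.inertiaDeg ℤ) := by
    rw [Ideal.absNorm_eq_pow_inertiaDeg' _ hq, Ideal.inertiaDeg'_eq_inertiaDeg]
  have htower : v.asIdeal.inertiaDeg ℤ
      = (v.under (𝓞 M)).asIdeal.inertiaDeg ℤ * v.asIdeal.inertiaDeg (𝓞 M) := by
    have : v.asIdeal.LiesOver (v.under (𝓞 M)).asIdeal := ⟨rfl⟩
    exact Ideal.inertiaDeg_tower (R := ℤ) (v.under (𝓞 M)).asIdeal v.asIdeal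
  have hpos : 0 < v.asIdeal.inertiaDeg (𝓞 M) := Ideal.inertiaDeg_pos _ _
  rw [← card_dec_eq hv, ← card_dec_inf_eq D M hv] at htower
  rw [← card_dec_inf_eq D M hv] at hpos
  have hdeg : v.under (𝓞 M) ∈ S14.degOne M ↔ (v.under (𝓞 M)).asIdeal.inertiaDeg ℤ = 1 := by
    change (Ideal.absNorm (v.under (𝓞 M)).asIdeal).Prime ↔ _
    rw [hN]
    constructor
    · intro h; exact Nat.Prime.eq_one_of_pow h
    · intro h; rw [h, pow_one]; exact hq
  rw [hdeg]
  constructor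
  · intro h
    rw [h, one_mul] at htower
    have : (dec v ⊓ D : Subgroup (L ≃ₐ[ℚ] L)) = dec v :=
      Subgroup.eq_of_le_of_card_ge inf_le_left htower.le
    rw [← this]
    exact inf_le_right
  · intro h
    rw [inf_eq_left.mpr h] at htower hpos
    have := Nat.eq_of_mul_eq_mul_right hpos (htower.symm.trans (one_mul _).symm)
    exact this

end Fermat.Agent.FD
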