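import Fermat.Agent.S14.ZetaBound
import Fermat.Agent.S14.DensKummer

/-!
# FD, piece AN: the two analytic inputs

* `primeSum_degOne`: `∑_{P ∈ degOne M, δ ∉ P} N P ^ (-s) = log (1/(s-1)) + O(1)` as `s → 1+`
  (upper bound: `S14.DK.stepC` + monotonicity; lower bound: `S14.log_zetaR_le`,
  `S14.eventually_zetaR_bounds`, `S14.DK.stepB`).
* `moebius`: strong induction with `Nat.sum_totient`.
-/

set_option autoImplicit false

namespace Fermat.Agent.FD

open NumberField IsDedekindDomain Filter Topology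

/-- `f = O(1)` as `s → 1+`. -/
def BddNear (f : ℝ → ℝ) : Prop := ∃ C : ℝ, ∀ᶠ s in 𝓝[>] (1 : ℝ), |f s| ≤ C

/-- `log (1/(s-1))`. -/
noncomputable def Lam (s : ℝ) : ℝ := Real.log (1 / (s - 1))

theorem BddNear.sub {f g : ℝ → ℝ} (hf : BddNear f) (hg : BddNear g) :
    BddNear (fun s => f s - g s) := by
  obtain ⟨C, hC⟩ := hf
  obtain ⟨D, hD⟩ := hg
  refine ⟨C + D, ?_⟩
  filter_upwards [hC, hD] with s h1 h2
  exact (abs_sub _ _).trans (add_le_add h1 h2)

theorem BddNear.add {f g : ℝ → ℝ} (hf : BddNear f) (hg : BddNear g) :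
    BddNear (fun s => f s + g s) := by
  obtain ⟨C, hC⟩ := hf
  obtain ⟨D, hD⟩ := hg
  refine ⟨C + D, ?_⟩
  filter_upwards [hC, hD] with s h1 h2
  exact (abs_add_le _ _).trans (add_le_add h1 h2)

theorem BddNear.zero : BddNear (fun _ => 0) := ⟨0, Eventually.of_forall fun _ => by simp⟩

theorem BddNear.sum {ι : Type*} (t : Finset ι) (f : ι → ℝ → ℝ) (h : ∀ i ∈ t, BddNear (f i)) :
    BddNear (fun s => ∑ i ∈ t, f i s) := by
  classical
  induction t using Finset.induction_on with
  | empty => simpa using BddNear.zero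
  | insert i t hi ih =>
    simp only [Finset.sum_insert hi]
    exact (h i (Finset.mem_insert_self i t)).add
      (ih fun j hj => h j (Finset.mem_insert_of_mem hj))

theorem BddNear.congr {f g : ℝ → ℝ} (hf : BddNear f) (h : ∀ s, f s = g s) : BddNear g := by
  have : f = g := funext h
  rwa [← this]

theorem primeSum_degOne (M : Type*) [Field M] [NumberField M] (δ : ℕ) (hδ : δ ≠ 0) :
    BddNear (fun s => NumberField.Set.primeIdealZetaSum
      {v : HeightOneSpectrum (𝓞 M) | v ∈ S14.degOne M ∧ (δ : 𝓞 M) ∉ v.asIdeal} s - Lam s) := by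
  obtain ⟨c, C, hc, hC, hb⟩ := S14.eventually_zetaR_bounds M
  obtain ⟨C₂, h2⟩ := S14.log_zetaR_le M
  obtain ⟨C₃, h3⟩ := S14.DK.stepB (δ : 𝓞 M) (by exact_mod_cast hδ) (S14.degOne M)
  refine ⟨|Real.log C| + |Real.log c| + |C₂| + |C₃|, ?_⟩
  filter_upwards [hb, eventually_mem_nhdsWithin] with s hs hs1
  have hs1' : (1 : ℝ) < s := hs1
  have hpos : 0 < s - 1 := by linarith
  have hinv : (0 : ℝ) < 1 / (s - 1) := by positivity
  set P := NumberField.Set.primeIdealZetaSum
      {v : HeightOneSpectrum (𝓞 M) | v ∈ S14.degOne M ∧ (δ : 𝓞 M) ∉ v.asIdeal} s with hP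
  have e1 : ∀ a : ℝ, 0 < a → Real.log (a / (s - 1)) = Real.log a + Lam s := by
    intro a ha
    rw [Lam, ← Real.log_mul ha.ne' hinv.ne', mul_one_div]
  -- upper bound
  have u1 := S14.exp_primeSum_le_zetaR M
    {v : HeightOneSpectrum (𝓞 M) | v ∈ S14.degOne M ∧ (δ : 𝓞 M) ∉ v.asIdeal} hs1'
  have u2 : P ≤ Real.log C + Lam s := by
    rw [← e1 C hC, Real.le_log_iff_exp_le (by positivity)]
    exact u1.trans hs.2
  -- lower bound
  have l1 : Real.log c + Lam s ≤ Real.log (S14.zetaR M s) := by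
    rw [← e1 c hc]
    exact Real.log_le_log (by positivity) hs.1
  have l2 := h2 s hs1'
  have l3 := h3 s hs1'
  rw [abs_le]
  have a1 := le_abs_self (Real.log C)
  have a2 := neg_abs_le (Real.log c)
  have a3 := le_abs_self C₂
  have a4 := le_abs_self C₃
  have b1 := abs_nonneg (Real.log C)
  have b2 := abs_nonneg (Real.log c)
  have b3 := abs_nonneg C₂
  have b4 := abs_nonneg C₃
  constructor <;> linarith

/-- (`n > 0` is needed: for `n = m = 0` the hypothesis says nothing on `B 0`.) -/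
theorem moebius (n : ℕ) (hn : 0 < n) (B : ℕ → ℝ → ℝ) (Λ : ℝ → ℝ)
    (h : ∀ m, m ∣ n → BddNear (fun s => ∑ d ∈ m.divisors, B d s - m * Λ s)) :
    ∀ m, m ∣ n → BddNear (fun s => B m s - (Nat.totient m : ℝ) * Λ s) := by
  intro m
  induction m using Nat.strong_induction_on with
  | _ m ih =>
    intro hm
    have hm0 : m ≠ 0 := by
      rintro rfl
      rw [zero_dvd_iff] at hm
      omega
    have h1 := h m hm
    have h2 : BddNear (fun s => ∑ d ∈ m.properDivisors, (B d s - (Nat.totient d : ℝ) * Λ s)) :=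
      BddNear.sum _ _ fun d hd => ih d (Nat.mem_properDivisors.mp hd).2
        ((Nat.mem_properDivisors.mp hd).1.trans hm)
    refine (h1.sub h2).congr fun s => ?_
    have e1 : (m : ℝ) = ∑ d ∈ m.divisors, (Nat.totient d : ℝ) := by
      exact_mod_cast (Nat.sum_totient m).symm
    rw [e1, ← Nat.insert_self_properDivisors hm0,
      Finset.sum_insert Nat.self_notMem_properDivisors,
      Finset.sum_insert Nat.self_notMem_properDivisors, Finset.sum_sub_distrib, ← Finset.sum_mul]
    ring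

theorem not_bddNear_Lam {c : ℝ} (hc : 0 < c) {f : ℝ → ℝ} (h : BddNear (fun s => f s - c * Lam s)) :
    ∃ s : ℝ, 1 < s ∧ 0 < f s := by
  obtain ⟨C, hC⟩ := h
  have hev : ∀ᶠ s in 𝓝[>] (1 : ℝ), s < 1 + Real.exp (-(C / c + 1)) := by
    have : ∀ᶠ s in 𝓝 (1 : ℝ), s < 1 + Real.exp (-(C / c + 1)) :=
      eventually_lt_nhds (by linarith [Real.exp_pos (-(C / c + 1))])
    exact this.filter_mono nhdsWithin_le_nhds
  obtain ⟨s, hs1, hs2, hs3⟩ := (hC.and (hev.and eventually_mem_nhdsWithin)).exists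
  have hs3' : (1 : ℝ) < s := hs3
  refine ⟨s, hs3', ?_⟩
  have hpos : 0 < s - 1 := by linarith
  have hL : C / c + 1 < Lam s := by
    rw [Lam, Real.lt_log_iff_exp_lt (by positivity), lt_div_iff₀ hpos]
    have h1 : s - 1 < Real.exp (-(C / c + 1)) := by linarith
    calc Real.exp (C / c + 1) * (s - 1) < Real.exp (C / c + 1) * Real.exp (-(C / c + 1)) :=
          mul_lt_mul_of_pos_left h1 (Real.exp_pos _)
      _ = 1 := by rw [← Real.exp_add, add_neg_cancel, Real.exp_zero]
  have h2 : C + c < c * Lam s := by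
    have := mul_lt_mul_of_pos_left hL hc
    rw [mul_add, mul_one, mul_div_cancel₀ _ hc.ne'] at this
    exact this
  have h3 := (abs_le.mp hs1).1
  linarith

end Fermat.Agent.FD
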