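import Mathlib

/-!
# FD, piece FIB: summation along the orbits of a finite group (Mathlib only)

Paper proof: `X ≃ Σ y, π ⁻¹ {y}` (`Equiv.sigmaFiberEquiv`), every fibre is one orbit `D x₀`, finite,
all stabilisers in it are conjugate, `|orbit| |Stab| = |D|`
(`MulAction.card_orbit_mul_card_stabilizer_eq_card_group`), so the sum over the fibre is `|D| f y`.
Summability: `summable_sigma_of_nonneg`.
-/

set_option autoImplicit false

namespace Fermat.Agent.FD

theorem fib_sum_fiber {X Y D : Type*} [Group D] [Finite D] [MulAction D X] (π : X → Y)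
    (horb : ∀ x x', π x = π x' ↔ ∃ τ : D, τ • x = x') (y : Y) (x₀ : X) (hx₀ : π x₀ = y) :
    Finite {x // π x = y} ∧
      ∑ᶠ x : {x // π x = y}, (Nat.card (MulAction.stabilizer D (x : X)) : ℝ) = Nat.card D := by
  classical
  have e : {x // π x = y} ≃ MulAction.orbit D x₀ :=
    Equiv.subtypeEquivRight fun x => by
      rw [MulAction.mem_orbit_iff, ← horb, hx₀, eq_comm]
  have hforb : Finite (MulAction.orbit D x₀) := Set.finite_range _
  have hfin : Finite {x // π x = y} := Finite.of_equiv _ e.symm
  refine ⟨hfin, ?_⟩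
  have hst : ∀ x : {x // π x = y}, Nat.card (MulAction.stabilizer D (x : X))
      = Nat.card (MulAction.stabilizer D x₀) := by
    intro x
    obtain ⟨τ, hτ⟩ := (horb x₀ x).mp (by rw [hx₀, x.2])
    exact (Nat.card_congr (MulAction.stabilizerEquivStabilizer hτ.symm).toEquiv).symm
  simp only [hst]
  have := Fintype.ofFinite {x // π x = y}
  rw [finsum_eq_sum_of_fintype, Finset.sum_const, Finset.card_univ, nsmul_eq_mul,
    ← Nat.card_eq_fintype_card, Nat.card_congr e]
  have := Fintype.ofFinite D
  have := Fintype.ofFinite (MulAction.orbit D x₀)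
  have h := MulAction.card_orbit_mul_card_stabilizer_eq_card_group D x₀
  simp only [← Nat.card_eq_fintype_card] at h
  exact_mod_cast h

theorem hasSum_fiber {X Y D : Type*} [Group D] [Finite D] [MulAction D X] (π : X → Y)
    (hπ : Function.Surjective π) (horb : ∀ x x', π x = π x' ↔ ∃ τ : D, τ • x = x')
    (f : Y → ℝ) (hf0 : ∀ y, 0 ≤ f y) (hf : Summable f) :
    HasSum (fun x => (Nat.card (MulAction.stabilizer D x) : ℝ) * f (π x))
      (Nat.card D * ∑' y, f y) := by
  classical
  rw [← (Equiv.sigmaFiberEquiv π).hasSum_iff]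
  have hfib : ∀ y : Y, HasSum (fun x : {x // π x = y} =>
      ((fun x => (Nat.card (MulAction.stabilizer D x) : ℝ) * f (π x)) ∘ (Equiv.sigmaFiberEquiv π))
        ⟨y, x⟩) (Nat.card D * f y) := by
    intro y
    obtain ⟨x₀, hx₀⟩ := hπ y
    obtain ⟨hfin, hs⟩ := fib_sum_fiber π horb y x₀ hx₀
    have := Fintype.ofFinite {x // π x = y}
    rw [← hs, finsum_eq_sum_of_fintype, Finset.sum_mul]
    convert hasSum_fintype _ using 2 with x
    simp only [Function.comp, Equiv.sigmaFiberEquiv_apply]
    rw [x.2]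
  refine HasSum.sigma_of_hasSum (hf.hasSum.mul_left _) hfib ?_
  rw [summable_sigma_of_nonneg]
  · refine ⟨fun y => (hfib y).summable, ?_⟩
    simp only [fun y => (hfib y).tsum_eq]
    exact hf.mul_left _
  · intro x
    exact mul_nonneg (Nat.cast_nonneg _) (hf0 _)

end Fermat.Agent.FD
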