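import Fermat.Agent.FD.Alg
import Fermat.Agent.FD.Fiber
import Fermat.Agent.FD.Analytic

/-!
# FD, piece CORE: assembly of the density argument
-/

set_option autoImplicit false

namespace Fermat.Agent.FD

open NumberField IsDedekindDomain Filter Topology
open scoped Pointwise

theorem card_zpowers_pow_div {G : Type*} [Group G] [Finite G] (g : G) {m : ℕ} (hm : m ∣ orderOf g) :
    Nat.card (Subgroup.zpowers (g ^ (orderOf g / m))) = m := by
  have hn : 0 < orderOf g := orderOf_pos g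
  obtain ⟨t, ht⟩ := hm
  have hm0 : 0 < m := Nat.pos_of_ne_zero (by rintro rfl; simp only [zero_mul] at ht; omega)
  have ht0 : 0 < t := Nat.pos_of_ne_zero (by rintro rfl; simp only [mul_zero] at ht; omega)
  have h1 : orderOf g / m = t := by rw [ht]; exact Nat.mul_div_cancel_left t hm0
  rw [Nat.card_zpowers, h1, orderOf_pow_of_dvd ht0.ne' ⟨m, by rw [ht]; ring⟩, ht]
  exact Nat.mul_div_cancel m ht0

theorem le_zpowers_pow_div_iff {G : Type*} [Group G] [Finite G] (g : G) {m : ℕ}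
    (hm : m ∣ orderOf g) (E : Subgroup G) :
    E ≤ Subgroup.zpowers (g ^ (orderOf g / m)) ↔ E ≤ Subgroup.zpowers g ∧ Nat.card E ∣ m := by
  constructor
  · intro h
    refine ⟨h.trans ?_, ?_⟩
    · rw [Subgroup.zpowers_le]
      exact Subgroup.pow_mem _ (Subgroup.mem_zpowers g) _
    · have := Subgroup.card_dvd_of_le h
      rwa [card_zpowers_pow_div g hm] at this
  · rintro ⟨h1, h2⟩ x hx
    obtain ⟨k, rfl⟩ := Subgroup.mem_zpowers_iff.mp (h1 hx)
    have hn : 0 < orderOf g := orderOf_pos g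
    obtain ⟨t, ht⟩ := hm
    have hm0 : 0 < m := Nat.pos_of_ne_zero (by rintro rfl; simp only [zero_mul] at ht; omega)
    have h3 : orderOf g / m = t := by rw [ht]; exact Nat.mul_div_cancel_left t hm0
    have h4 : (g ^ k) ^ Nat.card E = 1 := by
      have := pow_card_eq_one' (G := E) (x := ⟨g ^ k, hx⟩)
      exact congrArg Subtype.val this
    have h5 : (g ^ k) ^ m = 1 := by
      obtain ⟨c, hc⟩ := h2
      rw [hc, pow_mul, h4, one_pow]
    have h6 : (orderOf g : ℤ) ∣ k * m := by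
      rw [orderOf_dvd_iff_zpow_eq_one, zpow_mul, zpow_natCast]
      exact h5
    rw [ht] at h6
    have h7 : (t : ℤ) ∣ k := by
      have : ((m : ℤ) * t) ∣ m * k := by
        rw [mul_comm (m : ℤ) k]; exact_mod_cast h6
      exact (mul_dvd_mul_iff_left (by exact_mod_cast hm0.ne')).mp this
    obtain ⟨c, rfl⟩ := h7
    rw [h3, Subgroup.mem_zpowers_iff]
    exact ⟨c, by rw [zpow_mul, zpow_natCast]⟩

section

variable {L : Type*} [Field L] [NumberField L] [IsGalois ℚ L]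

theorem card_stabilizer_subgroup (D : Subgroup (L ≃ₐ[ℚ] L)) {v : HeightOneSpectrum (𝓞 L)}
    (h : dec v ≤ D) : Nat.card (MulAction.stabilizer D v) = Nat.card (dec v) := by
  have h1 : MulAction.stabilizer D v = (dec v).subgroupOf D := by
    ext τ
    rw [MulAction.mem_stabilizer_iff, Subgroup.mem_subgroupOf, MulAction.mem_stabilizer_iff]
    rfl
  rw [h1]
  exact Nat.card_congr (Subgroup.subgroupOfEquivOfLe h).toEquiv

theorem zbq_mem (v : HeightOneSpectrum (𝓞 L)) : (S14.zbq v : 𝓞 L) ∈ v.asIdeal := by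
  have h := Ideal.absNorm_mem (Ideal.under ℤ v.asIdeal)
  have h2 : algebraMap ℤ (𝓞 L) ((Ideal.absNorm (Ideal.under ℤ v.asIdeal) : ℕ) : ℤ) ∈ v.asIdeal := h
  rw [map_natCast] at h2
  exact h2

/-- the primes with decomposition group inside `D`. -/
def setY (δ : ℕ) (D : Subgroup (L ≃ₐ[ℚ] L)) : Set (HeightOneSpectrum (𝓞 L)) :=
  {v | (δ : 𝓞 L) ∉ v.asIdeal ∧ dec v ≤ D}

/-- the primes with decomposition group of order `d` inside `⟨g⟩`. -/
def setZ (δ : ℕ) (g : L ≃ₐ[ℚ] L) (d : ℕ) : Set (HeightOneSpectrum (𝓞 L)) :=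
  {v | (δ : 𝓞 L) ∉ v.asIdeal ∧ dec v ≤ Subgroup.zpowers g ∧ Nat.card (dec v) = d}

theorem wt_nonneg (s : ℝ) (v : HeightOneSpectrum (𝓞 L)) : 0 ≤ wt s v := by
  unfold wt
  positivity

/-- The fibre sum identity. -/
theorem hasSum_setY (δ : ℕ) (hδ : ∀ v : HeightOneSpectrum (𝓞 L), (δ : 𝓞 L) ∉ v.asIdeal → Unr v)
    (D : Subgroup (L ≃ₐ[ℚ] L)) (M : Type*) [Field M] [NumberField M] [Algebra M L]
    [IsGaloisGroup D M L] {s : ℝ} (hs : 1 < s) :
    HasSum ((setY δ D).indicator (wt s)) (Nat.card D * NumberField.Set.primeIdealZetaSum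
      {v : HeightOneSpectrum (𝓞 M) | v ∈ S14.degOne M ∧ (δ : 𝓞 M) ∉ v.asIdeal} s) := by
  set T : Set (HeightOneSpectrum (𝓞 M)) :=
    {v : HeightOneSpectrum (𝓞 M) | v ∈ S14.degOne M ∧ (δ : 𝓞 M) ∉ v.asIdeal} with hT
  set f : HeightOneSpectrum (𝓞 M) → ℝ :=
    T.indicator (fun P => (Ideal.absNorm P.asIdeal : ℝ) ^ (-s)) with hf
  have hf0 : ∀ P, 0 ≤ f P := fun P => Set.indicator_nonneg (fun P _ => by positivity) P
  have hfs : Summable f := (S14.summable_prime_rpow M hs).indicator T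
  have key := hasSum_fiber (D := D) (fun v : HeightOneSpectrum (𝓞 L) => v.under (𝓞 M))
    (under_surjective M) (under_eq_iff D M) f hf0 hfs
  have h1 : ∑' P, f P = NumberField.Set.primeIdealZetaSum T s := by
    rw [NumberField.Set.primeIdealZetaSum_def, hf, tsum_subtype T
      (fun P : HeightOneSpectrum (𝓞 M) => (Ideal.absNorm P.asIdeal : ℝ) ^ (-s))]
  rw [h1] at key
  convert key using 1
  funext v
  by_cases hv : v ∈ setY δ D
  · have hU : Unr v := hδ v hv.1
    have h2 : v.under (𝓞 M) ∈ S14.degOne M := (under_mem_degOne_iff D M hU).mpr hv.2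
    have h3 : v.under (𝓞 M) ∈ T := ⟨h2, fun h => hv.1 ((natCast_mem_under M δ v).mp h)⟩
    rw [Set.indicator_of_mem hv, hf, Set.indicator_of_mem h3, absNorm_under M h2,
      card_stabilizer_subgroup D hv.2]
    rfl
  · have h3 : v.under (𝓞 M) ∉ T := by
      rintro ⟨h2, h4⟩
      have h5 : (δ : 𝓞 L) ∉ v.asIdeal := fun h => h4 ((natCast_mem_under M δ v).mpr h)
      exact hv ⟨h5, (under_mem_degOne_iff D M (hδ v h5)).mp h2⟩
    rw [Set.indicator_of_notMem hv, hf, Set.indicator_of_notMem h3, mul_zero]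

theorem indicator_setY_eq (δ : ℕ) (g : L ≃ₐ[ℚ] L) {m : ℕ} (hm : m ∣ orderOf g)
    (w : HeightOneSpectrum (𝓞 L) → ℝ) (v : HeightOneSpectrum (𝓞 L)) :
    (setY δ (Subgroup.zpowers (g ^ (orderOf g / m)))).indicator w v =
      ∑ d ∈ m.divisors, (setZ δ g d).indicator w v := by
  have hm0 : m ≠ 0 := by
    rintro rfl
    exact (orderOf_pos g).ne' (Nat.eq_zero_of_zero_dvd hm)
  by_cases hv : v ∈ setY δ (Subgroup.zpowers (g ^ (orderOf g / m)))
  · have h1 := (le_zpowers_pow_div_iff g hm (dec v)).mp hv.2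
    rw [Set.indicator_of_mem hv, Finset.sum_eq_single (Nat.card (dec v))]
    · rw [Set.indicator_of_mem]
      exact ⟨hv.1, h1.1, rfl⟩
    · intro d _ hd
      rw [Set.indicator_of_notMem]
      rintro ⟨_, _, h⟩
      exact hd h.symm
    · intro h
      exact absurd (Nat.mem_divisors.mpr ⟨h1.2, hm0⟩) h
  · rw [Set.indicator_of_notMem hv]
    symm
    refine Finset.sum_eq_zero fun d hd => ?_
    rw [Set.indicator_of_notMem]
    rintro ⟨h1, h2, h3⟩
    exact hv ⟨h1, (le_zpowers_pow_div_iff g hm (dec v)).mpr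
      ⟨h2, h3 ▸ (Nat.mem_divisors.mp hd).1⟩⟩

end

theorem core (L : Type*) [Field L] [NumberField L] [IsGalois ℚ L] (g : L ≃ₐ[ℚ] L) (δ : ℕ)
    (hδ : δ ≠ 0) :
    ∃ (ℓ : ℕ) (Q : Ideal (𝓞 L)), ℓ.Prime ∧ Q.IsMaximal ∧ (ℓ : 𝓞 L) ∈ Q ∧ ¬ ℓ ∣ δ ∧
      ∀ φ : L ≃ₐ[ℚ] L, (∀ x : 𝓞 L, φ • x - x ^ ℓ ∈ Q) → g ∈ Subgroup.zpowers φ := by
  obtain ⟨δ₀, hδ₀, hU₀⟩ := exists_delta L
  set δ₁ : ℕ := δ * δ₀ with hδ₁
  have hδ₁0 : δ₁ ≠ 0 := mul_ne_zero hδ hδ₀
  have hU : ∀ v : HeightOneSpectrum (𝓞 L), (δ₁ : 𝓞 L) ∉ v.asIdeal → Unr v := by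
    intro v hv
    apply hU₀ v
    intro h
    apply hv
    rw [hδ₁, Nat.cast_mul]
    exact Ideal.mul_mem_left _ _ h
  set n := orderOf g with hn
  have hn0 : 0 < n := orderOf_pos g
  -- the sums
  set B : ℕ → ℝ → ℝ := fun d s => ∑' v, (setZ δ₁ g d).indicator (wt s) v with hB
  -- summability
  have hsum : ∀ (d : ℕ) (s : ℝ), 1 < s → Summable ((setZ δ₁ g d).indicator (wt s)) := by
    intro d s hs
    have h1 := (hasSum_setY δ₁ hU (Subgroup.zpowers g)
      (FixedPoints.intermediateField (Subgroup.zpowers g) : IntermediateField ℚ L) hs).summable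
    have h2 := h1.indicator (setZ δ₁ g d)
    have h3 : (setZ δ₁ g d).indicator (wt s) =
        (setZ δ₁ g d).indicator ((setY δ₁ (Subgroup.zpowers g)).indicator (wt s)) := by
      funext v
      by_cases hv : v ∈ setZ δ₁ g d
      · rw [Set.indicator_of_mem hv, Set.indicator_of_mem hv, Set.indicator_of_mem]
        exact ⟨hv.1, hv.2.1⟩
      · rw [Set.indicator_of_notMem hv, Set.indicator_of_notMem hv]
    rw [h3]
    exact h2
  -- the fibre sums
  have hA : ∀ m, m ∣ n → BddNear (fun s => ∑ d ∈ m.divisors, B d s - m * Lam s) := by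
    intro m hm
    obtain ⟨C, hC⟩ := primeSum_degOne
      (FixedPoints.intermediateField (Subgroup.zpowers (g ^ (n / m))) : IntermediateField ℚ L)
      δ₁ hδ₁0
    refine ⟨m * C, ?_⟩
    filter_upwards [hC, eventually_mem_nhdsWithin] with s hs hs1
    have hs1' : 1 < s := hs1
    have h1 := hasSum_setY δ₁ hU (Subgroup.zpowers (g ^ (n / m)))
      (FixedPoints.intermediateField (Subgroup.zpowers (g ^ (n / m))) : IntermediateField ℚ L) hs1'
    rw [card_zpowers_pow_div g hm] at h1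
    have h2 : ∑ d ∈ m.divisors, B d s = ∑' v, (setY δ₁ (Subgroup.zpowers (g ^ (n / m)))).indicator
        (wt s) v := by
      simp only [hB]
      rw [← Summable.tsum_finsetSum (fun d _ => hsum d s hs1')]
      refine tsum_congr fun v => ?_
      exact (indicator_setY_eq δ₁ g hm (wt s) v).symm
    rw [h2, h1.tsum_eq, ← mul_sub, abs_mul, abs_of_nonneg (Nat.cast_nonneg m)]
    exact mul_le_mul_of_nonneg_left hs (Nat.cast_nonneg m)
  have hM := moebius n hn0 B Lam hA n dvd_rfl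
  obtain ⟨s, hs, hpos⟩ := not_bddNear_Lam (c := (Nat.totient n : ℝ))
    (by exact_mod_cast Nat.totient_pos.mpr hn0) hM
  have hne : (setZ δ₁ g n).Nonempty := by
    by_contra h
    rw [Set.not_nonempty_iff_eq_empty] at h
    simp [hB, h] at hpos
  obtain ⟨v, hv1, hv2, hv3⟩ := hne
  have hdec : dec v = Subgroup.zpowers g :=
    Subgroup.eq_of_le_of_card_ge hv2 (by rw [hv3, Nat.card_zpowers])
  refine ⟨S14.zbq v, v.asIdeal, S14.zbq_prime v, v.isMaximal, zbq_mem v, ?_, ?_⟩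
  · rintro ⟨c, hc⟩
    apply hv1
    rw [hδ₁, hc]
    push_cast
    rw [mul_assoc]
    exact Ideal.mul_mem_right _ _ (zbq_mem v)
  · intro φ hφ
    exact dec_le_zpowers (hU v hv1) φ hφ (hdec ▸ Subgroup.mem_zpowers g)

end Fermat.Agent.FD
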