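import Mathlib
import Fermat.Agent.S14.Defs
import Fermat.Agent.S14.ZetaBound

/-!
# FD: definitions

`L` is a number field, Galois over `ℚ`, `G = Gal(L/ℚ)` acts on the primes of `𝓞 L`.
-/

set_option autoImplicit false

namespace Fermat.Agent.FD

open NumberField IsDedekindDomain
open scoped Pointwise

noncomputable section

variable {L : Type*} [Field L] [NumberField L]

/-- The action of the Galois group on the set of nonzero primes. -/
instance actH1 : MulAction (L ≃ₐ[ℚ] L) (HeightOneSpectrum (𝓞 L)) where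
  smul τ v := ⟨τ • v.asIdeal, inferInstance, by
    intro h
    apply v.ne_bot
    have := congrArg (fun I => τ⁻¹ • I) h
    simpa using this⟩
  one_smul v := HeightOneSpectrum.ext (one_smul _ v.asIdeal)
  mul_smul σ τ v := HeightOneSpectrum.ext (mul_smul σ τ v.asIdeal)

theorem smul_asIdeal (τ : L ≃ₐ[ℚ] L) (v : HeightOneSpectrum (𝓞 L)) :
    (τ • v).asIdeal = τ • v.asIdeal := rfl

/-- The decomposition group. -/
abbrev dec (v : HeightOneSpectrum (𝓞 L)) : Subgroup (L ≃ₐ[ℚ] L) :=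
  MulAction.stabilizer (L ≃ₐ[ℚ] L) v

/-- The inertia group at `v` is trivial. -/
def Unr (v : HeightOneSpectrum (𝓞 L)) : Prop :=
  ∀ τ : L ≃ₐ[ℚ] L, (∀ x : 𝓞 L, τ • x - x ∈ v.asIdeal) → τ = 1

/-- The weight `|D(v)| ℓ(v)^{-s}`. -/
def wt (s : ℝ) (v : HeightOneSpectrum (𝓞 L)) : ℝ :=
  (Nat.card (dec v) : ℝ) * (S14.zbq v : ℝ) ^ (-s)

end

end Fermat.Agent.FD
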