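import Fermat.Agent.FD.Core
import Fermat.Agent.S54.Frobenius
import Fermat.Prelude.Def_EllipticCurve_FrobeniusTrace
import Fermat.Prelude.Def_FLTPrelim_Ramification

/-!
# FD: the Frobenius density theorem (existence form)

For every finite extension `L` of `ℚ` inside `ℚ̄`, every `g ∈ G_ℚ` and every finite set `S` of
primes there are a prime `ℓ ∉ S`, a place `P` of `ℚ̄` over `ℓ`, a Frobenius lift `σ` at `P` and
`k > 0` such that `σ ^ k = g` on `L`.

Piece TR (this file): deduce it from `core`.  Paper proof: `L' = normalClosure ℚ L ℚ̄` (finite,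
Galois), `g' = g.restrictNormal L'`, `δ = ∏_{ℓ ∈ S, ℓ ≠ 0} ℓ`; `core` gives `ℓ`, `Q ⊂ 𝓞 L'`.
Choose a maximal ideal `Q̄` of `ℤ̄ = integralClosure ℤ ℚ̄` over `Q` (going up for the ring hom
`𝓞 L' → ℤ̄`), and `σ ∈ G_ℚ` stabilising `Q̄` and inducing `x ↦ x ^ ℓ` on `ℤ̄ / Q̄` (copy the proof of
`S54.exists_frobenius_ideal`, which works for every maximal ideal containing `ℓ`:
`Ideal.Quotient.stabilizerHom_surjective_of_profinite`).  `P = S54.locValuationSubring ℓ _ Q̄ _`;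
`P.IsFrobeniusAt σ ℓ` as in the proof of `S54.exists_frobenius`.  `φ = σ.restrictNormal L'` satisfies
`φ x - x ^ ℓ ∈ Q`, so `g' = φ ^ k` (`k : ℤ`, make it a positive natural number with `orderOf φ`).
-/

set_option autoImplicit false
set_option linter.style.haveILetI false

namespace Fermat.Agent.FD

namespace TR

open scoped Pointwise NumberField
open Fermat.Agent.S54

local notation "Qb" => AlgebraicClosure ℚ
local notation "GQ" => (AlgebraicClosure ℚ ≃ₐ[ℚ] AlgebraicClosure ℚ)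
local notation "Zb" => integralClosure ℤ (AlgebraicClosure ℚ)

attribute [local instance] isAlgClosure_Qbar isAlgebraic_int_Qbar isFractionRing_Zbar

/-- a Frobenius element for a GIVEN maximal ideal of `ℤ̄` containing `ℓ`. -/
theorem exists_frobenius_of_ideal (ℓ : ℕ) (hℓ : ℓ.Prime) (Q : Ideal Zb) (hQmax : Q.IsMaximal)
    (hℓQ : (ℓ : Zb) ∈ Q) :
    ∃ σ : GQ, (∀ x, x ∈ Q ↔ σ • x ∈ Q) ∧ ∀ x, σ • x - x ^ ℓ ∈ Q := by
  letI : TopologicalSpace Zb := ⊥
  haveI : DiscreteTopology Zb := ⟨rfl⟩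
  haveI : ContinuousSMul GQ Zb := by
    rw [continuousSMul_iff_stabilizer_isOpen]
    intro x
    have := stabilizer_isOpen_of_isIntegral (K := ℚ) (L := Qb) (x : Qb)
    convert this using 1
    ext g
    simp only [SetLike.mem_coe, MulAction.mem_stabilizer_iff]
    constructor
    · intro h; exact congrArg Subtype.val h
    · intro h; exact Subtype.ext h
  haveI : IsGaloisGroup GQ ℤ Zb := IsGaloisGroup.of_isFractionRing GQ ℤ Zb ℚ Qb
  haveI : Algebra.IsInvariant ℤ Zb GQ := IsGaloisGroup.isInvariant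
  let P : Ideal ℤ := Ideal.span {(ℓ : ℤ)}
  haveI hPmax : P.IsMaximal := by
    have hp : Prime (ℓ : ℤ) := Nat.prime_iff_prime_int.mp hℓ
    exact PrincipalIdealRing.isMaximal_of_irreducible hp.irreducible
  have hQP : Q.comap (algebraMap ℤ Zb) = P := by
    symm
    refine hPmax.eq_of_le (Ideal.comap_ne_top _ hQmax.ne_top) ?_
    rw [Ideal.span_singleton_le_iff_mem, Ideal.mem_comap]
    simpa using hℓQ
  haveI : Q.LiesOver P := ⟨hQP.symm⟩
  have hsurj := Ideal.Quotient.stabilizerHom_surjective_of_profinite (G := GQ) P Q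
  obtain ⟨f, hf⟩ := exists_frob_algEquiv ℓ hℓ P Q hℓQ
  obtain ⟨⟨σ, hσ⟩, hσf⟩ := hsurj f
  refine ⟨σ, fun x => ?_, fun x => ?_⟩
  · rw [MulAction.mem_stabilizer_iff] at hσ
    conv_rhs => rw [← hσ]
    exact (Ideal.smul_mem_pointwise_smul_iff (a := σ) (S := Q) (x := x)).symm
  · have := DFunLike.congr_fun hσf (Ideal.Quotient.mk Q x)
    rw [hf, Ideal.Quotient.stabilizerHom_apply, ← map_pow, Ideal.Quotient.eq] at this
    exact this

theorem liesOver_loc (ℓ : ℕ) (hℓ : ℓ.Prime) (Q : Ideal Zb) [Q.IsPrime] (hℓQ : (ℓ : Zb) ∈ Q) :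
    (locValuationSubring ℓ hℓ Q hℓQ).LiesOverPrime ℓ := by
  have := coe_mem_nonunits_loc (hℓ := hℓ) (hℓQ := hℓQ) hℓQ
  simpa [ValuationSubring.LiesOverPrime] using this

theorem isFrobeniusAt_loc (ℓ : ℕ) (hℓ : ℓ.Prime) (Q : Ideal Zb) [Q.IsPrime] (hℓQ : (ℓ : Zb) ∈ Q)
    (σ : GQ) (hσQ : ∀ x, x ∈ Q ↔ σ • x ∈ Q) (hσF : ∀ x, σ • x - x ^ ℓ ∈ Q) :
    (locValuationSubring ℓ hℓ Q hℓQ).IsFrobeniusAt σ ℓ := by
  have hfwd : ∀ x, x ∈ locValuationSubring ℓ hℓ Q hℓQ → σ x ∈ locValuationSubring ℓ hℓ Q hℓQ := by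
    rintro x ⟨b, s, hs, h⟩
    refine ⟨σ • b, σ • s, fun hm => hs ((hσQ s).mpr hm), ?_⟩
    change σ x * σ (s : Qb) = σ (b : Qb)
    rw [← map_mul, h]
  have hbwd : ∀ x, x ∈ locValuationSubring ℓ hℓ Q hℓQ →
      σ⁻¹ x ∈ locValuationSubring ℓ hℓ Q hℓQ := by
    rintro x ⟨b, s, hs, h⟩
    refine ⟨σ⁻¹ • b, σ⁻¹ • s, fun hm => hs ?_, ?_⟩
    · have := (hσQ (σ⁻¹ • s)).mp hm
      rwa [smul_inv_smul] at this
    · change σ⁻¹ x * σ⁻¹ (s : Qb) = σ⁻¹ (b : Qb)
      rw [← map_mul, h]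
  have hσ : σ ∈ (locValuationSubring ℓ hℓ Q hℓQ).decompositionSubgroup ℚ := by
    rw [MulAction.mem_stabilizer_iff]
    ext x
    rw [ValuationSubring.mem_pointwise_smul_iff_inv_smul_mem]
    constructor
    · intro h
      have := hfwd _ h
      change σ • (σ⁻¹ • x) ∈ _ at this
      rwa [smul_inv_smul] at this
    · intro h
      exact hbwd _ h
  refine ⟨hσ, fun x => ?_⟩
  obtain ⟨⟨a, ha⟩, rfl⟩ := IsLocalRing.residue_surjective x
  rw [← IsLocalRing.ResidueField.residue_smul, ← map_pow, ← sub_eq_zero, ← map_sub,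
    IsLocalRing.residue_eq_zero_iff, ← ValuationSubring.coe_mem_nonunits_iff]
  change σ a - a ^ ℓ ∈ _
  obtain ⟨b, s, hs, h⟩ := ha
  have hZA : ∀ y : Zb, (y : Qb) ∈ locValuationSubring ℓ hℓ Q hℓQ := fun y =>
    ⟨y, 1, fun h => (Ideal.IsPrime.ne_top inferInstance) ((Ideal.eq_top_iff_one Q).mpr h),
      by simp⟩
  have ha : a ∈ locValuationSubring ℓ hℓ Q hℓQ := ⟨b, s, hs, h⟩
  have hσs : σ • s ∉ Q := fun hm => hs ((hσQ s).mpr hm)
  let a' : locValuationSubring ℓ hℓ Q hℓQ := ⟨a, ha⟩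
  let σa' : locValuationSubring ℓ hℓ Q hℓQ := ⟨σ a, hfwd a ha⟩
  let u : locValuationSubring ℓ hℓ Q hℓQ := ⟨((σ • s : Zb) : Qb), hZA _⟩
  let n1 : locValuationSubring ℓ hℓ Q hℓQ := ⟨((σ • b - b ^ ℓ : Zb) : Qb), hZA _⟩
  let n2 : locValuationSubring ℓ hℓ Q hℓQ := ⟨((σ • s - s ^ ℓ : Zb) : Qb), hZA _⟩
  have hn1 : n1 ∈ IsLocalRing.maximalIdeal (locValuationSubring ℓ hℓ Q hℓQ) := by
    rw [← ValuationSubring.coe_mem_nonunits_iff]
    exact coe_mem_nonunits_loc (hσF b)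
  have hn2 : n2 ∈ IsLocalRing.maximalIdeal (locValuationSubring ℓ hℓ Q hℓQ) := by
    rw [← ValuationSubring.coe_mem_nonunits_iff]
    exact coe_mem_nonunits_loc (hσF s)
  have hu : u ∉ IsLocalRing.maximalIdeal (locValuationSubring ℓ hℓ Q hℓQ) := by
    rw [← ValuationSubring.coe_mem_nonunits_iff, ValuationSubring.mem_nonunits_iff_or]
    have hu0 : ((σ • s : Zb) : Qb) ≠ 0 := by
      intro h0
      apply hσs
      have : (σ • s : Zb) = 0 := Subtype.ext h0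
      rw [this]; exact Q.zero_mem
    rintro (h0 | h0)
    · exact hu0 h0
    · exact h0 ⟨1, σ • s, hσs, by
        change ((σ • s : Zb) : Qb)⁻¹ * ((σ • s : Zb) : Qb) = ((1 : Zb) : Qb)
        rw [inv_mul_cancel₀ hu0]; rfl⟩
  have key : (σa' - a' ^ ℓ) * u = n1 - a' ^ ℓ * n2 := by
    apply Subtype.ext
    change (σ a - a ^ ℓ) * σ (s : Qb) =
      (σ (b : Qb) - (b : Qb) ^ ℓ) - a ^ ℓ * (σ (s : Qb) - (s : Qb) ^ ℓ)
    rw [← h, map_mul, mul_pow]
    ring
  have hmem : (σa' - a' ^ ℓ) * u ∈ IsLocalRing.maximalIdeal (locValuationSubring ℓ hℓ Q hℓQ) := by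
    rw [key]
    exact Ideal.sub_mem _ hn1 (Ideal.mul_mem_left _ _ hn2)
  have := (Ideal.IsPrime.mem_or_mem inferInstance hmem).resolve_right hu
  rw [← ValuationSubring.coe_mem_nonunits_iff] at this
  exact this

/-- the inclusion `𝓞 K → ℤ̄`. -/
noncomputable def iotaO (K : IntermediateField ℚ Qb) : 𝓞 K →+* Zb where
  toFun := fun y => ⟨((y : K) : Qb), by
    have h := y.2
    exact h.map (IsScalarTower.toAlgHom ℤ K Qb)⟩
  map_one' := rfl
  map_mul' := fun _ _ => rfl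
  map_zero' := rfl
  map_add' := fun _ _ => rfl

theorem iotaO_injective (K : IntermediateField ℚ Qb) : Function.Injective (iotaO K) := by
  intro x y h
  have h1 : ((x : K) : Qb) = ((y : K) : Qb) := congrArg (fun z : Zb => (z : Qb)) h
  exact NumberField.RingOfIntegers.ext (Subtype.ext h1)

/-- going up from `𝓞 K` to `ℤ̄`. -/
theorem exists_maximal_over (K : IntermediateField ℚ Qb) (Q : Ideal (𝓞 K)) (hQ : Q.IsMaximal) :
    ∃ Q' : Ideal Zb, Q'.IsMaximal ∧ Q'.comap (iotaO K) = Q := by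
  letI : Algebra (𝓞 K) Zb := (iotaO K).toAlgebra
  haveI : IsScalarTower ℤ (𝓞 K) Zb := IsScalarTower.of_algebraMap_eq fun n => by
    simp
  haveI : Algebra.IsIntegral (𝓞 K) Zb := by
    refine ⟨fun x => ?_⟩
    have h1 : IsIntegral ℤ x := Algebra.IsIntegral.isIntegral x
    exact h1.tower_top
  obtain ⟨Q', hQ', h⟩ := Ideal.exists_ideal_over_maximal_of_isIntegral (S := Zb) Q (by
    have h0 : RingHom.ker (algebraMap (𝓞 K) Zb) = ⊥ :=
      (RingHom.injective_iff_ker_eq_bot _).mp (iotaO_injective K)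
    rw [h0]
    exact bot_le)
  exact ⟨Q', hQ', h⟩

end TR

open TR Fermat.Agent.S54 in
open scoped NumberField in
attribute [local instance] isAlgClosure_Qbar in
theorem exists_frobenius_pow_eq
    (L : IntermediateField ℚ (AlgebraicClosure ℚ)) [FiniteDimensional ℚ L]
    (g : AlgebraicClosure ℚ ≃ₐ[ℚ] AlgebraicClosure ℚ) (S : Finset ℕ) :
    ∃ (ℓ : ℕ) (P : ValuationSubring (AlgebraicClosure ℚ))
      (σ : AlgebraicClosure ℚ ≃ₐ[ℚ] AlgebraicClosure ℚ) (k : ℕ),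
      ℓ.Prime ∧ ℓ ∉ S ∧ P.LiesOverPrime ℓ ∧ P.IsFrobeniusAt σ ℓ ∧ 0 < k ∧
        ∀ x ∈ L, (σ ^ k) x = g x := by
  classical
  let L' : IntermediateField ℚ (AlgebraicClosure ℚ) :=
    IntermediateField.normalClosure ℚ L (AlgebraicClosure ℚ)
  have hLL' : L ≤ L' := IntermediateField.le_normalClosure L
  have : FiniteDimensional ℚ L' := normalClosure.is_finiteDimensional ℚ L (AlgebraicClosure ℚ)
  have : Normal ℚ L' := normalClosure.normal ℚ L (AlgebraicClosure ℚ)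
  have : IsGalois ℚ L' := ⟨⟩
  have : NumberField L' := ⟨⟩
  let δ : ℕ := ∏ ℓ ∈ S.erase 0, ℓ
  have hδ : δ ≠ 0 := Finset.prod_ne_zero_iff.mpr fun ℓ hℓ => (Finset.mem_erase.mp hℓ).1
  obtain ⟨ℓ, Q, hℓ, hQmax, hℓQ, hℓδ, hcore⟩ :=
    core L' (AlgEquiv.restrictNormalHom L' g) δ hδ
  obtain ⟨Q', hQ'max, hQ'Q⟩ := exists_maximal_over L' Q hQmax
  have hQ'prime : Q'.IsPrime := hQ'max.isPrime
  have hℓQ' : (ℓ : integralClosure ℤ (AlgebraicClosure ℚ)) ∈ Q' := by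
    have h1 : (ℓ : 𝓞 L') ∈ Q'.comap (iotaO L') := by rw [hQ'Q]; exact hℓQ
    rw [Ideal.mem_comap, map_natCast] at h1
    exact h1
  obtain ⟨σ, hσQ, hσF⟩ := exists_frobenius_of_ideal ℓ hℓ Q' hQ'max hℓQ'
  have hmem := hcore (AlgEquiv.restrictNormalHom L' σ) (by
    intro x
    rw [← hQ'Q, Ideal.mem_comap]
    have h1 : iotaO L' (AlgEquiv.restrictNormalHom L' σ • x - x ^ ℓ) =
        σ • iotaO L' x - iotaO L' x ^ ℓ := by
      apply Subtype.ext
      change (((AlgEquiv.restrictNormalHom L' σ) (x : L') : L') : AlgebraicClosure ℚ) -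
        ((x : L') : AlgebraicClosure ℚ) ^ ℓ =
        σ ((x : L') : AlgebraicClosure ℚ) - ((x : L') : AlgebraicClosure ℚ) ^ ℓ
      congr 1
      exact AlgEquiv.restrictNormal_commutes σ L' (x : L')
    rw [h1]
    exact hσF _)
  rw [← mem_powers_iff_mem_zpowers] at hmem
  obtain ⟨k, hk⟩ := hmem
  have hord : 0 < orderOf (AlgEquiv.restrictNormalHom L' σ) := orderOf_pos _
  refine ⟨ℓ, locValuationSubring ℓ hℓ Q' hℓQ', σ,
    k + orderOf (AlgEquiv.restrictNormalHom L' σ), hℓ, ?_, liesOver_loc ℓ hℓ Q' hℓQ',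
    isFrobeniusAt_loc ℓ hℓ Q' hℓQ' σ hσQ hσF, by omega, ?_⟩
  · intro hS
    exact hℓδ (Finset.dvd_prod_of_mem _ (Finset.mem_erase.mpr ⟨hℓ.ne_zero, hS⟩))
  · intro x hx
    have h1 : AlgEquiv.restrictNormalHom L' (σ ^ (k + orderOf (AlgEquiv.restrictNormalHom L' σ))) =
        AlgEquiv.restrictNormalHom L' g := by
      rw [map_pow, pow_add, pow_orderOf_eq_one, mul_one]
      exact hk
    have h2 := congrArg (fun τ : L' ≃ₐ[ℚ] L' => ((τ ⟨x, hLL' hx⟩ : L') : AlgebraicClosure ℚ)) h1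
    have h3 := AlgEquiv.restrictNormal_commutes
      (σ ^ (k + orderOf (AlgEquiv.restrictNormalHom L' σ))) L' ⟨x, hLL' hx⟩
    have h4 := AlgEquiv.restrictNormal_commutes g L' ⟨x, hLL' hx⟩
    exact h3.symm.trans (h2.trans h4)

end Fermat.Agent.FD
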